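import Fermat.Agent.S25.H11.ACLeaves
import Fermat.Agent.S25.H791.ACStage1
import Fermat.Agent.S25.H671.ACGen

/-!
# S25 / ALGCHARTS, leaf PT-BC (helper731): the point conditions are stable under base change

`pointCond_bc` : exact statement of `coord/S25-ALGCHARTS-skeleton.lean` (squad-lead helper11);
`leaf_pointBC : H11.Leaf.PointBC k B₀ B₁ B₀₁`.

Reusable:
* `p1_baseChange` : `P1` is stable under base change;
* `secq_bc_span` : under `P1` for `G`, every section of `G'(nE₀ - Σq)` is an `A'`-combination of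
  base-changed sections of `G(nE₀ - Σq)` (right exactness of `A' ⊗ -`; no flatness needed);
* `isGen_baseChange` : the image of a generator is a generator (no generator of `G'` assumed);
* `univIdeal_map_bc_comp`.
-/

set_option autoImplicit false
set_option linter.style.haveILetI false
set_option linter.unusedSectionVars false
set_option linter.unusedVariables false

universe u

open scoped TensorProduct

namespace Fermat.Agent.S25.H731

open Fermat.Agent.S25 Fermat.Agent.S25.H11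

section Core

variable {k : Type u} [Field k]
  {B₀ B₁ B₀₁ : Type u} [CommRing B₀] [CommRing B₁] [CommRing B₀₁]
  [Algebra k B₀] [Algebra k B₁] [Algebra k B₀₁] [Algebra B₀ B₀₁] [Algebra B₁ B₀₁]
  [IsScalarTower k B₀ B₀₁] [IsScalarTower k B₁ B₀₁]
  {x : B₀} {y : B₁} {e : B₁ →ₐ[k] k}

section Alg

variable {A A' : Type u} [CommRing A] [Algebra k A] [CommRing A'] [Algebra k A'] [Algebra A A']
  [IsScalarTower k A A']

/-- `P1` is stable under base change. -/
theorem p1_baseChange_aux (hC : IsCurveChart k B₀ B₁ B₀₁ x y e) (n : ℕ) {m : ℕ}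
    (q : Fin m → (B₀ →ₐ[k] k)) (ψ : A →ₐ[k] A') (hψ : ∀ a, ψ a = algebraMap A A' a)
    {G : CurveGD k B₀ B₁ B₀₁ A} {G' : CurveGD k B₀ B₁ B₀₁ A'} (h : CurveGD.IsBC ψ G G')
    (h1 : P1 x n q G) : P1 x n q G' := by
  rw [H791.p1_iff_annihilator_map hC n q ψ hψ h h1.1]
  have htop : H791.evRange x n q G = ⊤ := (H791.p1_iff.1 h1).2
  have hsub : Subsingleton (G.N₀ ⧸ H791.evRange x n q G) := by
    rw [htop]
    infer_instance
  have hann : Module.annihilator A (G.N₀ ⧸ H791.evRange x n q G) = ⊤ :=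
    Module.annihilator_eq_top_iff.2 hsub
  rw [hann, Ideal.map_top]

/-- The evaluation map `H⁰(G(nE₀)) → N₀ / I_q N₀`. -/
noncomputable def evq (x : B₀) (n : ℕ) {m : ℕ} (q : Fin m → (B₀ →ₐ[k] k))
    (G : CurveGD k B₀ B₁ B₀₁ A) :
    sec x n G →ₗ[A] G.N₀ ⧸ (vanq q G).restrictScalars A :=
  ((vanq q G).restrictScalars A).mkQ ∘ₗ (LinearMap.fst A G.N₀ G.N₁) ∘ₗ (sec x n G).subtype

theorem evq_apply (n : ℕ) {m : ℕ} (q : Fin m → (B₀ →ₐ[k] k))
    (G : CurveGD k B₀ B₁ B₀₁ A) (s : sec x n G) :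
    evq x n q G s = ((vanq q G).restrictScalars A).mkQ s.1.1 := rfl

theorem evq_surjective {n : ℕ} {m : ℕ} {q : Fin m → (B₀ →ₐ[k] k)}
    {G : CurveGD k B₀ B₁ B₀₁ A} (h1 : P1 x n q G) : Function.Surjective (evq x n q G) := by
  intro z
  obtain ⟨a, rfl⟩ := Submodule.Quotient.mk_surjective _ z
  obtain ⟨s, hs, hv⟩ := h1.2 a
  refine ⟨⟨s, hs⟩, ?_⟩
  rw [evq_apply]
  symm
  rw [Submodule.mkQ_apply, Submodule.Quotient.eq]
  exact hv

theorem mem_ker_evq_iff {n : ℕ} {m : ℕ} {q : Fin m → (B₀ →ₐ[k] k)}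
    {G : CurveGD k B₀ B₁ B₀₁ A} (s : sec x n G) :
    s ∈ LinearMap.ker (evq x n q G) ↔ s.1 ∈ secq x n q G := by
  rw [LinearMap.mem_ker, evq_apply, Submodule.mkQ_apply, Submodule.Quotient.mk_eq_zero, mem_secq]
  exact ⟨fun h => ⟨s.2, h⟩, fun h => h.2⟩

/-- Right exactness in the form used here: the kernel of `A' ⊗ f` is the image of
`A' ⊗ ker f` when `f` is onto. -/
theorem ker_baseChange_eq_of_surjective {M N : Type u} [AddCommGroup M] [Module A M]
    [AddCommGroup N] [Module A N] (f : M →ₗ[A] N) (hf : Function.Surjective f) :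
    LinearMap.ker (f.baseChange A') =
      LinearMap.range ((LinearMap.ker f).subtype.baseChange A') := by
  have hex : Function.Exact (LinearMap.ker f).subtype f := LinearMap.exact_subtype_ker_map f
  have hex' := lTensor_exact A' hex hf
  ext t
  rw [LinearMap.mem_ker, LinearMap.mem_range]
  have h1 : (f.baseChange A' : A' ⊗[A] M → A' ⊗[A] N) = f.lTensor A' :=
    LinearMap.baseChange_eq_ltensor f
  have h2 : ((LinearMap.ker f).subtype.baseChange A' : A' ⊗[A] (LinearMap.ker f) → A' ⊗[A] M) =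
      (LinearMap.ker f).subtype.lTensor A' :=
    LinearMap.baseChange_eq_ltensor _
  rw [h1, h2]
  exact hex' t

variable {ψ : A →ₐ[k] A'} {G : CurveGD k B₀ B₁ B₀₁ A} {G' : CurveGD k B₀ B₁ B₀₁ A'}
  {bc : GlueDatum.BaseChangeMaps (tensorMapLeft k ψ B₀) (tensorMapLeft k ψ B₁)
      (tensorMapLeft k ψ B₀₁) G G'}

/-- **Base change of `H⁰(G(nE₀ - Σq))`**: under `P1` for `G`, every section of `G'(nE₀ - Σq)` lies
in the `A'`-span of the base-changed sections of `G(nE₀ - Σq)`. -/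
theorem secq_bc_span_aux (E : H791.BCEquivs ψ bc) (hC : IsCurveChart k B₀ B₁ B₀₁ x y e)
    (n : ℕ) {m : ℕ} (q : Fin m → (B₀ →ₐ[k] k)) (h1 : P1 x n q G)
    {t' : G'.N₀ × G'.N₁} (ht' : t' ∈ secq x n q G') :
    t' ∈ Submodule.span A' ((fun s : G.N₀ × G.N₁ => H671.bcPair bc s) '' (secq x n q G : Set _)) := by
  set S : Submodule A' (G'.N₀ × G'.N₁) :=
    Submodule.span A' ((fun s : G.N₀ × G.N₁ => H671.bcPair bc s) '' (secq x n q G : Set _)) with hS
  obtain ⟨u, hu⟩ := E.mem_range_of_mem_sec hC n h1.1 (mem_secq.1 ht').1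
  obtain ⟨v, hv⟩ := E.mem_range_of_mem_vanq q (mem_secq.1 ht').2
  -- `u` is killed by `A' ⊗ evq`
  have hker : u ∈ LinearMap.ker ((evq x n q G).baseChange A') := by
    rw [LinearMap.mem_ker]
    have h2 : (evq x n q G).baseChange A' u =
        ((vanq q G).restrictScalars A).mkQ.baseChange A'
          ((LinearMap.fst A G.N₀ G.N₁).baseChange A'
            ((sec x n G).subtype.baseChange A' u)) := by
      rw [evq, LinearMap.baseChange_comp, LinearMap.baseChange_comp]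
      rfl
    rw [h2, hu, ← LinearMap.mem_ker, H791.ker_mkQ_baseChange_eq]
    refine ⟨v, ?_⟩
    rw [hv, LinearEquiv.symm_apply_eq, ← E.prod_fst, LinearEquiv.apply_symm_apply]
  rw [ker_baseChange_eq_of_surjective (evq x n q G) (evq_surjective h1)] at hker
  obtain ⟨w, hw⟩ := hker
  -- every element of `A' ⊗ ker evq` maps into `S`
  have hmem : ∀ w : A' ⊗[A] (LinearMap.ker (evq x n q G)),
      E.prod ((sec x n G).subtype.baseChange A'
        ((LinearMap.ker (evq x n q G)).subtype.baseChange A' w)) ∈ S := by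
    intro w
    induction w using TensorProduct.induction_on with
    | zero => simp
    | add w₁ w₂ h₁ h₂ => simp only [map_add]; exact S.add_mem h₁ h₂
    | tmul a s =>
      rw [LinearMap.baseChange_tmul, LinearMap.baseChange_tmul, E.prod_tmul]
      have hs : (s.1.1 : G.N₀ × G.N₁) ∈ secq x n q G := (mem_ker_evq_iff s.1).1 s.2
      have : ((a • bc.b₀ (s.1.1 : G.N₀ × G.N₁).1, a • bc.b₁ (s.1.1 : G.N₀ × G.N₁).2) :
          G'.N₀ × G'.N₁) = a • H671.bcPair bc (s.1.1 : G.N₀ × G.N₁) := rfl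
      rw [Submodule.subtype_apply, Submodule.subtype_apply, this]
      exact S.smul_mem a (Submodule.subset_span ⟨_, hs, rfl⟩)
  have := hmem w
  rwa [hw, hu, LinearEquiv.apply_symm_apply] at this

end Alg

section Main

variable {A A' : Type u} [CommRing A] [Algebra k A] [CommRing A'] [Algebra k A']

/-- Functoriality of the Hilbert ideal: `(I_univ · A) · A' = I_univ · A'`. -/
theorem map_bc_map_tensorMapLeft {R : Type u} [CommRing R] [Algebra k R]
    (I : Ideal (R ⊗[k] B₀)) (φ₀ : R →ₐ[k] A) (ψ : A →ₐ[k] A') :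
    (I.map (H491.bc B₀ φ₀)).map (tensorMapLeft k ψ B₀) = I.map (H491.bc B₀ (ψ.comp φ₀)) := by
  have hcomp : ∀ z : R ⊗[k] B₀,
      tensorMapLeft k ψ B₀ (H491.bc B₀ φ₀ z) = H491.bc B₀ (ψ.comp φ₀) z := by
    intro z
    induction z using TensorProduct.induction_on with
    | zero => simp
    | tmul a b => simp [tensorMapLeft, H491.bc]
    | add z w hz hw => rw [map_add, map_add, map_add, hz, hw]
  apply le_antisymm
  · rw [Ideal.map_le_iff_le_comap, Ideal.map_le_iff_le_comap]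
    intro z hz
    rw [Ideal.mem_comap, Ideal.mem_comap, hcomp]
    exact Ideal.mem_map_of_mem _ hz
  · rw [Ideal.map_le_iff_le_comap]
    intro z hz
    rw [Ideal.mem_comap, ← hcomp]
    exact Ideal.mem_map_of_mem _ (Ideal.mem_map_of_mem _ hz)

/-- `P1` is stable under base change. -/
theorem p1_baseChange (hC : IsCurveChart k B₀ B₁ B₀₁ x y e) (n : ℕ) {m : ℕ}
    (q : Fin m → (B₀ →ₐ[k] k)) (ψ : A →ₐ[k] A')
    {G : CurveGD k B₀ B₁ B₀₁ A} {G' : CurveGD k B₀ B₁ B₀₁ A'} (h : CurveGD.IsBC ψ G G')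
    (h1 : P1 x n q G) : P1 x n q G' := by
  letI : Algebra A A' := ψ.toRingHom.toAlgebra
  haveI : IsScalarTower k A A' := IsScalarTower.of_algebraMap_eq' (by
    ext c
    exact (ψ.commutes c).symm)
  exact p1_baseChange_aux hC n q ψ (fun _ => rfl) h h1

/-- **Base change of `H⁰(G(nE₀ - Σq))`**: under `P1` for `G`, every section of `G'(nE₀ - Σq)` lies
in the `A'`-span of the base-changed sections of `G(nE₀ - Σq)`. -/
theorem secq_bc_span (hC : IsCurveChart k B₀ B₁ B₀₁ x y e) (n : ℕ) {m : ℕ}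
    (q : Fin m → (B₀ →ₐ[k] k)) {ψ : A →ₐ[k] A'}
    {G : CurveGD k B₀ B₁ B₀₁ A} {G' : CurveGD k B₀ B₁ B₀₁ A'}
    (bc : GlueDatum.BaseChangeMaps (tensorMapLeft k ψ B₀) (tensorMapLeft k ψ B₁)
      (tensorMapLeft k ψ B₀₁) G G') (h1 : P1 x n q G)
    {t' : G'.N₀ × G'.N₁} (ht' : t' ∈ secq x n q G') :
    t' ∈ Submodule.span A'
      ((fun s : G.N₀ × G.N₁ => H671.bcPair bc s) '' (secq x n q G : Set _)) := by
  letI : Algebra A A' := ψ.toRingHom.toAlgebra
  haveI : IsScalarTower k A A' := IsScalarTower.of_algebraMap_eq' (by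
    ext c
    exact (ψ.commutes c).symm)
  obtain ⟨E⟩ := H791.exists_bcEquivs ψ (fun _ => rfl) bc
  exact secq_bc_span_aux E hC n q h1 ht'

/-- The base change maps are `ψ`-semilinear on pairs. -/
theorem bcPair_smul {ψ : A →ₐ[k] A'}
    {G : CurveGD k B₀ B₁ B₀₁ A} {G' : CurveGD k B₀ B₁ B₀₁ A'}
    (bc : GlueDatum.BaseChangeMaps (tensorMapLeft k ψ B₀) (tensorMapLeft k ψ B₁)
      (tensorMapLeft k ψ B₀₁) G G') (a : A) (s : G.N₀ × G.N₁) :
    H671.bcPair bc (a • s) = ψ a • H671.bcPair bc s := by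
  have h0 : ∀ n : G.N₀, bc.b₀ (a • n) = ψ a • bc.b₀ n := by
    intro n
    rw [← algebraMap_smul (A ⊗[k] B₀) a n, bc.b₀.map_smulₛₗ,
      ← algebraMap_smul (A' ⊗[k] B₀) (ψ a) (bc.b₀ n)]
    congr 1
  have h1 : ∀ n : G.N₁, bc.b₁ (a • n) = ψ a • bc.b₁ n := by
    intro n
    rw [← algebraMap_smul (A ⊗[k] B₁) a n, bc.b₁.map_smulₛₗ,
      ← algebraMap_smul (A' ⊗[k] B₁) (ψ a) (bc.b₁ n)]
    congr 1
  show (bc.b₀ (a • s).1, bc.b₁ (a • s).2) = ψ a • (bc.b₀ s.1, bc.b₁ s.2)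
  rw [Prod.smul_fst, Prod.smul_snd, h0, h1]
  rfl

/-- **Base change of a generator**: under `P1` for `G`, the image of a generator of
`H⁰(G(nE₀ - Σq))` is a generator of `H⁰(G'(nE₀ - Σq))`. -/
theorem isGen_baseChange (hC : IsCurveChart k B₀ B₁ B₀₁ x y e) (n : ℕ) {m : ℕ}
    (q : Fin m → (B₀ →ₐ[k] k)) {ψ : A →ₐ[k] A'}
    {G : CurveGD k B₀ B₁ B₀₁ A} {G' : CurveGD k B₀ B₁ B₀₁ A'}
    (bc : GlueDatum.BaseChangeMaps (tensorMapLeft k ψ B₀) (tensorMapLeft k ψ B₁)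
      (tensorMapLeft k ψ B₀₁) G G') (h1 : P1 x n q G)
    {s : G.N₀ × G.N₁} (hs : IsGen x y n q G s) : IsGen x y n q G' (H671.bcPair bc s) := by
  refine ⟨H671.mem_secq_bcPair bc hs.mem, ?_, H671.genModY_baseChange bc hs.gen⟩
  intro t' ht'
  have hmem := secq_bc_span hC n q bc h1 ht'
  refine Submodule.span_induction (p := fun t' _ => ∃ a : A', t' = a • H671.bcPair bc s)
    ?_ ?_ ?_ ?_ hmem
  · rintro _ ⟨t, ht, rfl⟩
    obtain ⟨a, rfl⟩ := hs.span t ht
    exact ⟨ψ a, bcPair_smul bc a s⟩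
  · exact ⟨0, by rw [zero_smul]⟩
  · rintro t₁ t₂ _ _ ⟨a₁, rfl⟩ ⟨a₂, rfl⟩
    exact ⟨a₁ + a₂, by rw [add_smul]⟩
  · rintro c t₁ _ ⟨a₁, rfl⟩
    exact ⟨c * a₁, by rw [mul_smul]⟩

/-- **PT-BC** (exact skeleton statement): the point conditions are compatible with base change,
with Hilbert coordinates `ψ ∘ φ₀`. -/
theorem pointCond_bc (hC : IsCurveChart k B₀ B₁ B₀₁ x y e) (i : ChartIndex k B₀)
    (hnum : i.Numeric B₀₁ y) {G : CurveGD k B₀ B₁ B₀₁ A} {G' : CurveGD k B₀ B₁ B₀₁ A'}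
    (ψ : A →ₐ[k] A') (hbc : CurveGD.IsBC ψ G G') (hrig : G.Rigidifiable e) (hdeg : G.Deg0)
    {φ₀ : H491.Rβ k i.β →ₐ[k] A} (h : PointCond x y i G φ₀) :
    PointCond x y i G' (ψ.comp φ₀) := by
  obtain ⟨s, hs, hspan⟩ := h.sect
  obtain ⟨bc⟩ := id hbc
  refine ⟨p1_baseChange hC i.n i.q ψ hbc h.p1, ⟨H671.bcPair bc s, isGen_baseChange hC i.n i.q
    bc h.p1 hs, ?_⟩, ?_⟩
  · rw [H671.span_fst_bcPair bc hspan, map_bc_map_tensorMapLeft]
  · exact h.unit.map ψ

end Main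

end Core

section Leaf

variable {k : Type u} [Field k] [IsAlgClosed k]
  {B₀ B₁ B₀₁ : Type u} [CommRing B₀] [CommRing B₁] [CommRing B₀₁]
  [Algebra k B₀] [Algebra k B₁] [Algebra k B₀₁] [Algebra B₀ B₀₁] [Algebra B₁ B₀₁]
  [IsScalarTower k B₀ B₀₁] [IsScalarTower k B₁ B₀₁]

/-- **Leaf PT-BC** in the form of `H11/ACLeaves.lean`. -/
theorem leaf_pointBC : H11.Leaf.PointBC k B₀ B₁ B₀₁ :=
  fun _ _ _ hC i hnum _ _ _ _ _ _ _ _ ψ hbc hrig hdeg _ h =>
    pointCond_bc hC i hnum ψ hbc hrig hdeg h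

end Leaf

end Fermat.Agent.S25.H731
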