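import Mathlib
import Fermat.Agent.S25.DefsAlg
import Fermat.Agent.S25.H565.GlueHom

/-!
# S25 / DEGREE D4 (helper731): twisting a gluing datum by a unit of `R₀₁`

For a gluing datum `G = (N₀, N₁, N₀₁, r₀, r₁)` over the cospan `R₀ → R₀₁ ← R₁` and a unit `u`
of `R₀₁`, `G.twist u := (N₀, N₁, N₀₁, r₀, u • r₁)`.  If `x ∈ R₀`, `y ∈ R₁` satisfy `x y = 1`
in `R₀₁`, then `G.twist (x ^ n)` is `G(n E₀)`, where `E₀` is the divisor of `y`, and there are
canonical morphisms of gluing data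

* `twistUpHom : G ⟶ G.twist (x ^ n)` and `twistDownHom : G.twist (y ^ n) ⟶ G`,

both the identity on `N₀`, `N₀₁` and multiplication by `y ^ n` on `N₁`.

Main results (over a field `K`, `R₀₁ = R₀[1/x]`, `y` a nonzerodivisor on `N₁`,
`N₁ / y N₁` finite-dimensional):

* `euler_twist_up`   : `χ(G.twist (x ^ n)) = χ(G) + n * dim (N₁ / y N₁)`;
* `euler_twist_down` : `χ(G) = χ(G.twist (y ^ n)) + n * dim (N₁ / y N₁)`;
* `finrank_quot_smul_eq` : `dim (N / y N) = dim (R / y R)` for an invertible module `N` over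
  `R` when `R / y R` is finite-dimensional (Picard group of a semilocal ring is trivial).
-/

set_option autoImplicit false
set_option linter.style.haveILetI false
set_option linter.unusedSectionVars false

universe u

open scoped TensorProduct

namespace Fermat.Agent.S25.H731

open Fermat.Agent.S25 Fermat.Agent.S25.H565

noncomputable section

/-! ## Linear algebra: cokernel of a power of an injective endomorphism -/

section LinAlg

variable {K : Type*} [Field K] {V : Type*} [AddCommGroup V] [Module K V]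

/-- For an injective endomorphism `T` with finite-dimensional cokernel,
`dim coker (T ^ n) = n * dim coker T`. -/
theorem finrank_coker_pow (T : V →ₗ[K] V) (hT : Function.Injective T)
    [FiniteDimensional K (V ⧸ LinearMap.range T)] (n : ℕ) :
    FiniteDimensional K (V ⧸ LinearMap.range (T ^ n)) ∧
      Module.finrank K (V ⧸ LinearMap.range (T ^ n)) =
        n * Module.finrank K (V ⧸ LinearMap.range T) := by
  induction n with
  | zero =>
    have h1 : LinearMap.range (T ^ 0) = ⊤ := by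
      rw [pow_zero]; exact LinearMap.range_id
    have hsub : Subsingleton (V ⧸ LinearMap.range (T ^ 0)) := by
      rw [Submodule.Quotient.subsingleton_iff]; exact h1
    refine ⟨inferInstance, ?_⟩
    rw [zero_mul]
    exact Module.finrank_zero_of_subsingleton
  | succ n ih =>
    obtain ⟨hfd, hrank⟩ := ih
    have hTn : Function.Injective (T ^ n) := by
      rw [Module.End.coe_pow]; exact hT.iterate n
    have hFC : FinCoh (T ^ n) := by
      refine ⟨?_, hfd⟩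
      rw [LinearMap.ker_eq_bot.2 hTn]
      infer_instance
    obtain ⟨hFC', -, hone⟩ := finCoh_comp_left (T ^ n) T hT hFC
    have hcomp : T ∘ₗ (T ^ n) = T ^ (n + 1) := by
      rw [pow_succ']; rfl
    rw [hcomp] at hFC' hone
    refine ⟨hFC'.2, ?_⟩
    have : Module.finrank K (V ⧸ LinearMap.range (T ^ (n + 1))) =
        Module.finrank K (V ⧸ LinearMap.range (T ^ n)) +
          Module.finrank K (V ⧸ LinearMap.range T) := hone
    rw [this, hrank]
    ring

end LinAlg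


/-! ## The twist of a gluing datum by a unit of `R₀₁` -/

section Twist

variable {A R₀ R₁ R₀₁ : Type u} [CommRing A] [CommRing R₀] [CommRing R₁]
    [CommRing R₀₁] [Algebra A R₀] [Algebra A R₁] [Algebra A R₀₁] [Algebra R₀ R₀₁]
    [Algebra R₁ R₀₁] [IsScalarTower A R₀ R₀₁] [IsScalarTower A R₁ R₀₁]

/-- `u • r₁` as an `R₁`-linear map. -/
def twistMap (G : GlueDatum A R₀ R₁ R₀₁) (u : R₀₁ˣ) : G.N₁ →ₗ[R₁] G.N₀₁ :=
  ((LinearEquiv.smulOfUnit u : G.N₀₁ ≃ₗ[R₀₁] G.N₀₁).toLinearMap.restrictScalars R₁) ∘ₗ G.r₁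

@[simp] theorem twistMap_apply (G : GlueDatum A R₀ R₁ R₀₁) (u : R₀₁ˣ) (s : G.N₁) :
    twistMap G u s = (u : R₀₁) • G.r₁ s := rfl

theorem isBaseChange_twistMap (G : GlueDatum A R₀ R₁ R₀₁) (u : R₀₁ˣ) :
    IsBaseChange R₀₁ (twistMap G u) :=
  IsBaseChange.comp G.isBaseChange₁
    (IsBaseChange.ofEquiv (LinearEquiv.smulOfUnit u : G.N₀₁ ≃ₗ[R₀₁] G.N₀₁))

/-- The twist `(N₀, N₁, N₀₁, r₀, u • r₁)` of a gluing datum by a unit `u` of `R₀₁`. -/
def twist (G : GlueDatum A R₀ R₁ R₀₁) (u : R₀₁ˣ) : GlueDatum A R₀ R₁ R₀₁ where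
  N₀ := G.N₀
  N₁ := G.N₁
  N₀₁ := G.N₀₁
  r₀ := G.r₀
  r₁ := twistMap G u
  isBaseChange₀ := G.isBaseChange₀
  isBaseChange₁ := isBaseChange_twistMap G u
  invertible₀ := G.invertible₀
  invertible₁ := G.invertible₁

@[simp] theorem twist_r₀ (G : GlueDatum A R₀ R₁ R₀₁) (u : R₀₁ˣ) (s : G.N₀) :
    (twist G u).r₀ s = G.r₀ s := rfl

@[simp] theorem twist_r₁ (G : GlueDatum A R₀ R₁ R₀₁) (u : R₀₁ˣ) (s : G.N₁) :
    (twist G u).r₁ s = (u : R₀₁) • G.r₁ s := rfl

theorem twist_cech_apply (G : GlueDatum A R₀ R₁ R₀₁) (u : R₀₁ˣ) (p : G.N₀ × G.N₁) :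
    (twist G u).cech p = G.r₀ p.1 - (u : R₀₁) • G.r₁ p.2 := by
  rw [GlueHom.cech_apply]; rfl

/-- The unit of `R₀₁` attached to `x ∈ R₀`, `y ∈ R₁` with `x y = 1`. -/
def unitOfMulEqOne (x : R₀) (y : R₁) (hxy : algebraMap R₀ R₀₁ x * algebraMap R₁ R₀₁ y = 1) :
    R₀₁ˣ :=
  ⟨algebraMap R₀ R₀₁ x, algebraMap R₁ R₀₁ y, hxy, by rw [mul_comm]; exact hxy⟩

@[simp] theorem val_unitOfMulEqOne (x : R₀) (y : R₁)
    (hxy : algebraMap R₀ R₀₁ x * algebraMap R₁ R₀₁ y = 1) :
    ((unitOfMulEqOne x y hxy : R₀₁ˣ) : R₀₁) = algebraMap R₀ R₀₁ x := rfl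

@[simp] theorem val_inv_unitOfMulEqOne (x : R₀) (y : R₁)
    (hxy : algebraMap R₀ R₀₁ x * algebraMap R₁ R₀₁ y = 1) :
    (((unitOfMulEqOne x y hxy)⁻¹ : R₀₁ˣ) : R₀₁) = algebraMap R₁ R₀₁ y := rfl

variable (x : R₀) (y : R₁) (hxy : algebraMap R₀ R₀₁ x * algebraMap R₁ R₀₁ y = 1)

/-- Multiplication by `y ^ n` on `N₁`, as an `R₁`-linear map. -/
def smulY (G : GlueDatum A R₀ R₁ R₀₁) (y : R₁) (n : ℕ) : G.N₁ →ₗ[R₁] G.N₁ :=
  LinearMap.lsmul R₁ G.N₁ (y ^ n)

@[simp] theorem smulY_apply (G : GlueDatum A R₀ R₁ R₀₁) (n : ℕ) (s : G.N₁) :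
    smulY G y n s = y ^ n • s := rfl

include hxy in
theorem unit_pow_smul_r₁ (G : GlueDatum A R₀ R₁ R₀₁) (n : ℕ) (s : G.N₁) :
    (((unitOfMulEqOne x y hxy) ^ n : R₀₁ˣ) : R₀₁) • G.r₁ (y ^ n • s) = G.r₁ s := by
  rw [map_smul, ← algebraMap_smul R₀₁ (y ^ n) (G.r₁ s), smul_smul, Units.val_pow_eq_pow_val,
    val_unitOfMulEqOne, map_pow, ← mul_pow, hxy, one_pow, one_smul]

/-- The canonical morphism `G ⟶ G(n E₀) = G.twist (x ^ n)`: identity on `N₀`, `N₀₁`,
multiplication by `y ^ n` on `N₁`. -/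
def twistUpHom (G : GlueDatum A R₀ R₁ R₀₁) (n : ℕ) :
    GlueHom G (twist G ((unitOfMulEqOne x y hxy) ^ n)) where
  f₀ := LinearMap.id
  f₁ := smulY G y n
  f₀₁ := LinearMap.id
  comm₀ _ := rfl
  comm₁ s := by
    show G.r₁ s = (((unitOfMulEqOne x y hxy) ^ n : R₀₁ˣ) : R₀₁) • G.r₁ (y ^ n • s)
    rw [unit_pow_smul_r₁]

include hxy in
theorem unit_inv_pow_smul_r₁ (G : GlueDatum A R₀ R₁ R₀₁) (n : ℕ) (s : G.N₁) :
    (((unitOfMulEqOne x y hxy)⁻¹ ^ n : R₀₁ˣ) : R₀₁) • G.r₁ s = G.r₁ (y ^ n • s) := by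
  rw [map_smul, ← algebraMap_smul R₀₁ (y ^ n) (G.r₁ s), Units.val_pow_eq_pow_val,
    val_inv_unitOfMulEqOne, map_pow]

/-- The canonical morphism `G(-n E₀) = G.twist (y ^ n) ⟶ G`: identity on `N₀`, `N₀₁`,
multiplication by `y ^ n` on `N₁`. -/
def twistDownHom (G : GlueDatum A R₀ R₁ R₀₁) (n : ℕ) :
    GlueHom (twist G ((unitOfMulEqOne x y hxy)⁻¹ ^ n)) G where
  f₀ := LinearMap.id
  f₁ := smulY G y n
  f₀₁ := LinearMap.id
  comm₀ _ := rfl
  comm₁ s := unit_inv_pow_smul_r₁ x y hxy G n s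

/-! ### The morphism defined by a section -/

theorem sectionHom_comm₀ (G : GlueDatum A R₀ R₁ R₀₁) (s₀ : G.N₀) (a : R₀) :
    (algebraMap R₀ R₀₁ a) • G.r₀ s₀ = G.r₀ (a • s₀) := by
  rw [map_smul, algebraMap_smul]

theorem sectionHom_comm₁ (G : GlueDatum A R₀ R₁ R₀₁) (u : R₀₁ˣ) (s₀ : G.N₀) (s₁ : G.N₁)
    (hs : G.r₀ s₀ = ((u⁻¹ : R₀₁ˣ) : R₀₁) • G.r₁ s₁) (b : R₁) :
    ((u : R₀₁) • algebraMap R₁ R₀₁ b) • G.r₀ s₀ = G.r₁ (b • s₁) := by
  rw [hs, smul_smul, smul_eq_mul, mul_comm (u : R₀₁), mul_assoc, ← Units.val_mul,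
    mul_inv_cancel, Units.val_one, mul_one, map_smul, algebraMap_smul]

/-- A section `(s₀, s₁)` of `G.twist u⁻¹` defines a morphism `unit.twist u ⟶ G`. -/
def sectionHom (G : GlueDatum A R₀ R₁ R₀₁) (u : R₀₁ˣ) (s₀ : G.N₀) (s₁ : G.N₁)
    (hs : G.r₀ s₀ = ((u⁻¹ : R₀₁ˣ) : R₀₁) • G.r₁ s₁) :
    GlueHom (twist (GlueDatum.unit A R₀ R₁ R₀₁) u) G where
  f₀ := LinearMap.toSpanSingleton R₀ G.N₀ s₀
  f₁ := LinearMap.toSpanSingleton R₁ G.N₁ s₁
  f₀₁ := LinearMap.toSpanSingleton R₀₁ G.N₀₁ (G.r₀ s₀)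
  comm₀ a := sectionHom_comm₀ G s₀ a
  comm₁ b := sectionHom_comm₁ G u s₀ s₁ hs b

/-- A nonzero element of `H⁰(G.twist u)`, with its components in `G.N₀`, `G.N₁`. -/
theorem exists_twisted_section {K R₀ R₁ R₀₁ : Type u} [Field K] [CommRing R₀] [CommRing R₁]
    [CommRing R₀₁] [Algebra K R₀] [Algebra K R₁] [Algebra K R₀₁] [Algebra R₀ R₀₁]
    [Algebra R₁ R₀₁] [IsScalarTower K R₀ R₀₁] [IsScalarTower K R₁ R₀₁]
    (G : GlueDatum K R₀ R₁ R₀₁) (u : R₀₁ˣ) (hF : FinCoh (twist G u).cech)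
    (h : 1 ≤ (twist G u).euler) :
    ∃ (s₀ : G.N₀) (s₁ : G.N₁), G.r₀ s₀ = (u : R₀₁) • G.r₁ s₁ ∧ (s₀ ≠ 0 ∨ s₁ ≠ 0) := by
  have h0 : 0 < Module.finrank K (twist G u).H0 := by
    rw [GlueDatum.euler] at h
    omega
  haveI := hF.1
  rw [Module.finrank_pos_iff_exists_ne_zero] at h0
  obtain ⟨⟨p, hp⟩, hne⟩ := h0
  have hp' : G.r₀ p.1 - (u : R₀₁) • G.r₁ p.2 = 0 := by
    rw [← twist_cech_apply]
    exact hp
  refine ⟨p.1, p.2, sub_eq_zero.1 hp', ?_⟩
  by_contra hcon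
  rw [not_or, not_not, not_not] at hcon
  apply hne
  apply Subtype.ext
  exact Prod.ext hcon.1 hcon.2

end Twist


/-! ## Euler characteristic of a twist (over a field) -/

section Euler

variable {K R₀ R₁ R₀₁ : Type u} [Field K] [CommRing R₀] [CommRing R₁]
    [CommRing R₀₁] [Algebra K R₀] [Algebra K R₁] [Algebra K R₀₁] [Algebra R₀ R₀₁]
    [Algebra R₁ R₀₁] [IsScalarTower K R₀ R₀₁] [IsScalarTower K R₁ R₀₁]

/-- A morphism of gluing data which is bijective on `N₀` and `N₀₁` and injective on `N₁`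
with finite-dimensional cokernel changes `χ` by the dimension of that cokernel. -/
theorem GlueHom_euler_of_surjective {G G' : GlueDatum K R₀ R₁ R₀₁} (φ : GlueHom G G')
    (x : R₀) [IsLocalization.Away x R₀₁]
    (h₀ : Function.Injective φ.f₀) (h₀' : Function.Surjective φ.f₀)
    (h₀₁' : Function.Surjective φ.f₀₁) (h₁ : Function.Injective φ.f₁)
    [FiniteDimensional K φ.coker₁] (hG : FinCoh G.cech) :
    FinCoh G'.cech ∧ G'.euler = G.euler + Module.finrank K φ.coker₁ := by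
  have hr0 : LinearMap.range (φ.f₀.restrictScalars K) = ⊤ :=
    LinearMap.range_eq_top.2 h₀'
  have hr01 : LinearMap.range φ.fMid = ⊤ := LinearMap.range_eq_top.2 h₀₁'
  have hs0 : Subsingleton φ.coker₀ := by
    rw [Submodule.Quotient.subsingleton_iff]; exact hr0
  have hs01 : Subsingleton φ.coker₀₁ := by
    rw [Submodule.Quotient.subsingleton_iff]; exact hr01
  have : FiniteDimensional K φ.coker₀ := inferInstance
  obtain ⟨hF, he⟩ := φ.euler_eq x h₀ h₁ hG
  refine ⟨hF, ?_⟩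
  have z0 : Module.finrank K φ.coker₀ = 0 := Module.finrank_zero_of_subsingleton
  have z01 : Module.finrank K φ.coker₀₁ = 0 := Module.finrank_zero_of_subsingleton
  rw [he, z0, z01]
  simp

variable (x : R₀) (y : R₁) (hxy : algebraMap R₀ R₀₁ x * algebraMap R₁ R₀₁ y = 1)

/-- Multiplication by `y` on `N₁` as a `K`-linear endomorphism. -/
def smulYK (G : GlueDatum K R₀ R₁ R₀₁) (y : R₁) : G.N₁ →ₗ[K] G.N₁ :=
  (LinearMap.lsmul R₁ G.N₁ y).restrictScalars K

@[simp] theorem smulYK_apply (G : GlueDatum K R₀ R₁ R₀₁) (s : G.N₁) :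
    smulYK G y s = y • s := rfl

theorem smulYK_pow_apply (G : GlueDatum K R₀ R₁ R₀₁) (n : ℕ) (s : G.N₁) :
    (smulYK G y ^ n) s = y ^ n • s := by
  induction n generalizing s with
  | zero => simp
  | succ n ih =>
    rw [pow_succ, Module.End.mul_apply, ih, smulYK_apply, smul_smul, pow_succ]

theorem smulY_restrictScalars (G : GlueDatum K R₀ R₁ R₀₁) (n : ℕ) :
    (smulY G y n).restrictScalars K = smulYK G y ^ n := by
  apply LinearMap.ext
  intro s
  rw [smulYK_pow_apply]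
  rfl

/-- The number `dim_K (N₁ / y N₁)`. -/
def quotYRank (G : GlueDatum K R₀ R₁ R₀₁) (y : R₁) : ℕ :=
  Module.finrank K (G.N₁ ⧸ LinearMap.range (smulYK G y))

/-- Facts about the cokernel of multiplication by `y ^ n` on `N₁`. -/
theorem cokerY_facts (G : GlueDatum K R₀ R₁ R₀₁)
    (hy : Function.Injective (smulYK G y))
    [FiniteDimensional K (G.N₁ ⧸ LinearMap.range (smulYK G y))] (n : ℕ) :
    FiniteDimensional K (G.N₁ ⧸ LinearMap.range ((smulY G y n).restrictScalars K)) ∧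
      Module.finrank K (G.N₁ ⧸ LinearMap.range ((smulY G y n).restrictScalars K)) =
        n * quotYRank G y ∧ Function.Injective (smulY G y n) := by
  obtain ⟨hfd, hrank⟩ := finrank_coker_pow (smulYK G y) hy n
  have hinj : Function.Injective (smulYK G y ^ n) := by
    rw [Module.End.coe_pow]; exact hy.iterate n
  rw [smulY_restrictScalars]
  refine ⟨hfd, hrank, ?_⟩
  intro a b hab
  apply hinj
  rw [smulYK_pow_apply, smulYK_pow_apply]
  exact hab

include hxy in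
/-- **D4 (twist up).** `χ(G(n E₀)) = χ(G) + n · dim (N₁ / y N₁)`. -/
theorem euler_twist_up [IsLocalization.Away x R₀₁] (G : GlueDatum K R₀ R₁ R₀₁)
    (hy : Function.Injective (smulYK G y))
    [FiniteDimensional K (G.N₁ ⧸ LinearMap.range (smulYK G y))]
    (hG : FinCoh G.cech) (n : ℕ) :
    FinCoh (twist G ((unitOfMulEqOne x y hxy) ^ n)).cech ∧
      (twist G ((unitOfMulEqOne x y hxy) ^ n)).euler = G.euler + n * quotYRank G y := by
  obtain ⟨hfd, hrank, h₁⟩ := cokerY_facts y G hy n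
  let φ := twistUpHom x y hxy G n
  have hfd' : FiniteDimensional K φ.coker₁ := hfd
  have hrank' : Module.finrank K φ.coker₁ = n * quotYRank G y := hrank
  have h₁' : Function.Injective φ.f₁ := h₁
  obtain ⟨hF, he⟩ := GlueHom_euler_of_surjective φ x (fun a b h => h) (fun a => ⟨a, rfl⟩)
    (fun a => ⟨a, rfl⟩) h₁' hG
  refine ⟨hF, ?_⟩
  rw [he, hrank']
  push_cast
  ring

include hxy in
/-- **D4 (twist down).** `χ(G) = χ(G(-n E₀)) + n · dim (N₁ / y N₁)`, and finiteness of the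
cohomology of `G(-n E₀)` follows from that of `G`. -/
theorem euler_twist_down [IsLocalization.Away x R₀₁] (G : GlueDatum K R₀ R₁ R₀₁)
    (hy : Function.Injective (smulYK G y))
    [FiniteDimensional K (G.N₁ ⧸ LinearMap.range (smulYK G y))]
    (hG : FinCoh G.cech) (n : ℕ) :
    FinCoh (twist G ((unitOfMulEqOne x y hxy)⁻¹ ^ n)).cech ∧
      G.euler = (twist G ((unitOfMulEqOne x y hxy)⁻¹ ^ n)).euler + n * quotYRank G y := by
  obtain ⟨hfd, hrank, h₁⟩ := cokerY_facts y G hy n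
  let φ := twistDownHom x y hxy G n
  have hfd' : FiniteDimensional K φ.coker₁ := hfd
  have hrank' : Module.finrank K φ.coker₁ = n * quotYRank G y := hrank
  have h₁' : Function.Injective φ.f₁ := h₁
  have hfd0 : FiniteDimensional K φ.coker₀ := by
    have : Subsingleton φ.coker₀ := by
      rw [Submodule.Quotient.subsingleton_iff]
      exact LinearMap.range_eq_top.2 (fun a => ⟨a, rfl⟩)
    infer_instance
  have hF : FinCoh (twist G ((unitOfMulEqOne x y hxy)⁻¹ ^ n)).cech :=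
    φ.finCoh_of_finCoh x (fun a b h => h) h₁' hG
  obtain ⟨-, he⟩ := GlueHom_euler_of_surjective φ x (fun a b h => h) (fun a => ⟨a, rfl⟩)
    (fun a => ⟨a, rfl⟩) h₁' hF
  refine ⟨hF, ?_⟩
  rw [he, hrank']
  push_cast
  ring

end Euler


/-! ## `N / y N ≅ R / y R` for an invertible module -/

section Invertible

variable {K R : Type u} [Field K] [CommRing R] [Algebra K R]
  (N : Type u) [AddCommGroup N] [Module R N] [Module K N] [IsScalarTower K R N]

/-- The range of multiplication by `y`, as a `K`-subspace, is `(y) • ⊤`. -/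
theorem range_lsmul_restrictScalars (y : R) :
    LinearMap.range ((LinearMap.lsmul R N y).restrictScalars K) =
      ((Ideal.span {y} • (⊤ : Submodule R N) : Submodule R N)).restrictScalars K := by
  ext n
  simp only [LinearMap.mem_range, LinearMap.coe_restrictScalars, LinearMap.lsmul_apply,
    Submodule.restrictScalars_mem]
  rw [Submodule.ideal_span_singleton_smul, Submodule.mem_smul_pointwise_iff_exists]
  constructor
  · rintro ⟨m, rfl⟩
    exact ⟨m, Submodule.mem_top, rfl⟩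
  · rintro ⟨m, -, rfl⟩
    exact ⟨m, rfl⟩

/-- For an invertible `R`-module `N` and `y ∈ R` with `R / y R` finite-dimensional over `K`:
`N / y N ≅ R / y R` as `K`-vector spaces. -/
theorem nonempty_quot_smul_equiv [Module.Invertible R N] (y : R)
    [Module.Finite K (R ⧸ Ideal.span {y})] :
    Nonempty ((N ⧸ LinearMap.range ((LinearMap.lsmul R N y).restrictScalars K)) ≃ₗ[K]
      (R ⧸ Ideal.span {y})) := by
  have : IsArtinianRing (R ⧸ Ideal.span {y}) := IsArtinianRing.of_finite K (R ⧸ Ideal.span {y})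
  have : Module.Free (R ⧸ Ideal.span {y}) ((R ⧸ Ideal.span {y}) ⊗[R] N) := inferInstance
  obtain ⟨e⟩ := Module.Invertible.free_iff_linearEquiv.mp
    (inferInstance : Module.Free (R ⧸ Ideal.span {y}) ((R ⧸ Ideal.span {y}) ⊗[R] N))
  let e1 := TensorProduct.quotTensorEquivQuotSMul N (Ideal.span {y})
  let e2 : (N ⧸ (Ideal.span {y} • (⊤ : Submodule R N) : Submodule R N)) ≃ₗ[R]
      (R ⧸ Ideal.span {y}) := e1.symm ≪≫ₗ (e.restrictScalars R)
  let e3 := Submodule.Quotient.restrictScalarsEquiv K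
    (Ideal.span {y} • (⊤ : Submodule R N) : Submodule R N)
  let e4 := Submodule.quotEquivOfEq _ _ (range_lsmul_restrictScalars (K := K) N y)
  exact ⟨e4 ≪≫ₗ e3 ≪≫ₗ (e2.restrictScalars K)⟩

end Invertible

end

end Fermat.Agent.S25.H731
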