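import Mathlib
import Fermat.Agent.S25.DefsAlg
import Fermat.Agent.S25.H731.Twist
import Fermat.Agent.S25.H250.AdapterProj
import Fermat.Agent.S25.H790.CechK2
import Fermat.Agent.S25.H850.K1a
import Fermat.Agent.S25.H10.K0

/-!
# S25 / DEGREE D1 + D4 (helper731): twists of gluing data on a curve chart, over a field

For a curve chart `(B₀, B₁, B₀₁, x, y, e)` over `k`, a field `K ⊇ k` and a gluing datum `G`
on `C_K`:

* `curve_finCoh` (D1): `H⁰(G)`, `H¹(G)` are finite-dimensional;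
* `curveUnit hC K` : the unit `1 ⊗ x` of `K ⊗ B₀₁`; `G.twist (curveUnit ^ n) = G(n E₀)`;
* `chartDeg k y = dim_k B₁ / y B₁` (the degree of the divisor `E₀ = div y`);
* `curve_euler_twist_up`, `curve_euler_twist_down`, `curve_degree_twist_up`,
  `curve_degree_twist_down` (D4): `deg G(± n E₀) = deg G ± n · chartDeg`.
-/

set_option autoImplicit false
set_option linter.style.haveILetI false
set_option linter.unusedSectionVars false

universe u

open scoped TensorProduct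
open Polynomial

namespace Fermat.Agent.S25.H731

open Fermat.Agent.S25 Fermat.Agent.S25.H10 Fermat.Agent.S25.H565

noncomputable section

/-! ## Quotient of an algebra which is equivariantly `K[X]ⁿ` -/

section Equivariant

variable {K : Type u} [Field K]

/-- Evaluation of all coordinates at `0`. -/
def evZero (K : Type u) [Field K] (n : ℕ) : (Fin n → K[X]) →ₗ[K] (Fin n → K) :=
  LinearMap.pi fun i => (Polynomial.lcoeff K 0) ∘ₗ LinearMap.proj i

@[simp] theorem evZero_apply (n : ℕ) (w : Fin n → K[X]) (i : Fin n) :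
    evZero K n w i = (w i).coeff 0 := rfl

theorem evZero_surjective (n : ℕ) : Function.Surjective (evZero K n) := by
  intro v
  refine ⟨fun i => Polynomial.C (v i), ?_⟩
  ext i
  simp

theorem evZero_eq_zero_iff (n : ℕ) (w : Fin n → K[X]) :
    evZero K n w = 0 ↔ ∃ w' : Fin n → K[X], w = (X : K[X]) • w' := by
  constructor
  · intro h
    have h' : ∀ i, (X : K[X]) ∣ w i := fun i => by
      rw [Polynomial.X_dvd_iff]
      exact congrFun h i
    choose w' hw' using h'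
    exact ⟨w', funext fun i => by rw [Pi.smul_apply, smul_eq_mul]; exact hw' i⟩
  · rintro ⟨w', rfl⟩
    ext i
    simp

variable {R : Type u} [CommRing R] [Algebra K R]

/-- If `R ≅ K[X]ⁿ` with `t` acting as `X`, then `R / t R ≅ Kⁿ`. -/
theorem nonempty_quot_span_equiv (t : R) {n : ℕ} (Φ : R ≃ₗ[K] (Fin n → K[X]))
    (hΦ : ∀ z, Φ (t * z) = (X : K[X]) • Φ z) :
    Nonempty ((R ⧸ Ideal.span {t}) ≃ₗ[K] (Fin n → K)) := by
  let g : R →ₗ[K] (Fin n → K) := evZero K n ∘ₗ Φ.toLinearMap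
  have hg : Function.Surjective g := (evZero_surjective n).comp Φ.surjective
  have hker : LinearMap.ker g = (Ideal.span {t} : Submodule R R).restrictScalars K := by
    ext z
    rw [LinearMap.mem_ker, Submodule.restrictScalars_mem]
    show evZero K n (Φ z) = 0 ↔ z ∈ Ideal.span {t}
    rw [evZero_eq_zero_iff, Ideal.mem_span_singleton']
    constructor
    · rintro ⟨w', hw'⟩
      refine ⟨Φ.symm w', ?_⟩
      apply Φ.injective
      rw [mul_comm, hΦ, Φ.apply_symm_apply, hw']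
    · rintro ⟨a, rfl⟩
      exact ⟨Φ a, by rw [mul_comm, hΦ]⟩
  let e1 := Submodule.Quotient.restrictScalarsEquiv K (Ideal.span {t} : Submodule R R)
  let e2 := Submodule.quotEquivOfEq _ _ hker
  exact ⟨e1.symm ≪≫ₗ e2.symm ≪≫ₗ g.quotKerEquivOfSurjective hg⟩

theorem finrank_quot_span_of_equivariant (t : R) {n : ℕ} (Φ : R ≃ₗ[K] (Fin n → K[X]))
    (hΦ : ∀ z, Φ (t * z) = (X : K[X]) • Φ z) :
    Module.Finite K (R ⧸ Ideal.span {t}) ∧ Module.finrank K (R ⧸ Ideal.span {t}) = n := by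
  obtain ⟨e⟩ := nonempty_quot_span_equiv t Φ hΦ
  refine ⟨Module.Finite.equiv e.symm, ?_⟩
  rw [e.finrank_eq]
  simp

end Equivariant


/-! ## Curve charts -/

section Chart

variable {k : Type u} [Field k] {B₀ B₁ B₀₁ : Type u} [CommRing B₀] [CommRing B₁] [CommRing B₀₁]
  [Algebra k B₀] [Algebra k B₁] [Algebra k B₀₁] [Algebra B₀ B₀₁] [Algebra B₁ B₀₁]
  [IsScalarTower k B₀ B₀₁] [IsScalarTower k B₁ B₀₁]
  {x : B₀} {y : B₁} {e : B₁ →ₐ[k] k}

/-- The degree of the divisor `E₀ = div y` on `Spec B₁`: `dim_k B₁ / y B₁`. -/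
def chartDeg (k : Type u) [Field k] {B₁ : Type u} [CommRing B₁] [Algebra k B₁] (y : B₁) : ℕ :=
  Module.finrank k (B₁ ⧸ Ideal.span {y})

/-- **D1.** The Čech cohomology of a gluing datum on `C_K`, `K` a field, is
finite-dimensional. -/
theorem curve_finCoh (hC : IsCurveChart k B₀ B₁ B₀₁ x y e) {K : Type u} [Field K] [Algebra k K]
    (G : CurveGD k B₀ B₁ B₀₁ K) : FinCoh G.cech := by
  have hX := H250.isFGProj_X0 hC G
  have hY := H250.isFGProj_Y1 hC G
  have h1 := H790.H1_finite (H250.chartCechOps hC G) (isFG_of_isFGProj hX) 0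
  obtain ⟨M, hM, hle⟩ := H850.exists_fg_ge_H0 (H250.chartCechOps hC G) hX hY
    (H250.r0_injective hC G) (H250.r1_injective hC G) 0
  have hd := H250.chartCechOps_d_zero hC G
  constructor
  · have hle' : LinearMap.ker G.cech ≤ M := by
      rw [← hd]; exact hle
    have hMf : FiniteDimensional K M := Module.Finite.iff_fg.2 hM
    exact Submodule.finiteDimensional_of_le hle'
  · have h1' : Module.Finite K (G.N₀₁ ⧸ LinearMap.range ((H250.chartCechOps hC G).d 0)) := h1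
    rw [hd] at h1'
    exact h1'

theorem tensor_mul_eq_one (hC : IsCurveChart k B₀ B₁ B₀₁ x y e) (K : Type u) [Field K]
    [Algebra k K] :
    algebraMap (K ⊗[k] B₀) (K ⊗[k] B₀₁) ((1 : K) ⊗ₜ[k] x) *
      algebraMap (K ⊗[k] B₁) (K ⊗[k] B₀₁) ((1 : K) ⊗ₜ[k] y) = 1 := by
  rw [H250.algebraMap_tensor_tmul, H250.algebraMap_tensor_tmul,
    Algebra.TensorProduct.tmul_mul_tmul, one_mul, hC.mul_eq_one, Algebra.TensorProduct.one_def]

/-- The unit `1 ⊗ x` of `K ⊗ B₀₁` (with inverse `1 ⊗ y`). -/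
def curveUnit (hC : IsCurveChart k B₀ B₁ B₀₁ x y e) (K : Type u) [Field K] [Algebra k K] :
    (K ⊗[k] B₀₁)ˣ :=
  unitOfMulEqOne ((1 : K) ⊗ₜ[k] x) ((1 : K) ⊗ₜ[k] y) (tensor_mul_eq_one hC K)

theorem away_tensor_x (hC : IsCurveChart k B₀ B₁ B₀₁ x y e) (K : Type u) [Field K]
    [Algebra k K] :
    IsLocalization.Away ((1 : K) ⊗ₜ[k] x : K ⊗[k] B₀) (K ⊗[k] B₀₁) := by
  haveI := hC.away₀
  exact H250.isLocalization_away_tensor B₀ B₀₁ x

/-- `dim_K (K ⊗ B₁) / (1 ⊗ y) = dim_k B₁ / y`. -/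
theorem finrank_tensor_quot_y (hC : IsCurveChart k B₀ B₁ B₀₁ x y e) (K : Type u) [Field K]
    [Algebra k K] :
    Module.Finite K ((K ⊗[k] B₁) ⧸ Ideal.span {((1 : K) ⊗ₜ[k] y : K ⊗[k] B₁)}) ∧
      Module.finrank K ((K ⊗[k] B₁) ⧸ Ideal.span {((1 : K) ⊗ₜ[k] y : K ⊗[k] B₁)}) =
        chartDeg k y := by
  haveI := hC.isDomain₁
  obtain ⟨n, φ, hφ⟩ := H250.exists_equivariant_equiv (H250.aeval_y_injective hC) hC.finite₁
  obtain ⟨Φ, hΦ⟩ := H250.exists_equivariant_equiv_tensor φ hφ K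
  obtain ⟨h1, h2⟩ := finrank_quot_span_of_equivariant ((1 : K) ⊗ₜ[k] y : K ⊗[k] B₁) Φ hΦ
  obtain ⟨-, h4⟩ := finrank_quot_span_of_equivariant y φ hφ
  refine ⟨h1, ?_⟩
  rw [h2, chartDeg, h4]

theorem smulYK_injective (hC : IsCurveChart k B₀ B₁ B₀₁ x y e) {K : Type u} [Field K]
    [Algebra k K] (G : CurveGD k B₀ B₁ B₀₁ K) :
    Function.Injective (smulYK G ((1 : K) ⊗ₜ[k] y : K ⊗[k] B₁)) := by
  have h := injective_of_isFGProj (H250.isFGProj_Y1 hC G)
  intro a b hab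
  exact h hab

/-- `dim_K N₁ / y N₁ = chartDeg` for every gluing datum on `C_K`. -/
theorem curve_quotYRank (hC : IsCurveChart k B₀ B₁ B₀₁ x y e) {K : Type u} [Field K]
    [Algebra k K] (G : CurveGD k B₀ B₁ B₀₁ K) :
    FiniteDimensional K
        (G.N₁ ⧸ LinearMap.range (smulYK G ((1 : K) ⊗ₜ[k] y : K ⊗[k] B₁))) ∧
      quotYRank G ((1 : K) ⊗ₜ[k] y : K ⊗[k] B₁) = chartDeg k y := by
  obtain ⟨h1, h2⟩ := finrank_tensor_quot_y hC K
  haveI := h1
  haveI := G.invertible₁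
  obtain ⟨E⟩ := nonempty_quot_smul_equiv (K := K) G.N₁ ((1 : K) ⊗ₜ[k] y : K ⊗[k] B₁)
  refine ⟨Module.Finite.equiv E.symm, ?_⟩
  rw [← h2]
  exact E.finrank_eq

/-- **D4 (twist up).** `χ(G(n E₀)) = χ(G) + n · chartDeg`. -/
theorem curve_euler_twist_up (hC : IsCurveChart k B₀ B₁ B₀₁ x y e) {K : Type u} [Field K]
    [Algebra k K] (G : CurveGD k B₀ B₁ B₀₁ K) (n : ℕ) :
    (twist G (curveUnit hC K ^ n)).euler = G.euler + n * chartDeg k y := by
  haveI := away_tensor_x hC K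
  obtain ⟨h1, h2⟩ := curve_quotYRank hC G
  haveI := h1
  have := (euler_twist_up ((1 : K) ⊗ₜ[k] x : K ⊗[k] B₀) ((1 : K) ⊗ₜ[k] y : K ⊗[k] B₁)
    (tensor_mul_eq_one hC K) G (smulYK_injective hC G) (curve_finCoh hC G) n).2
  rw [h2] at this
  exact this

/-- **D4 (twist down).** `χ(G(-n E₀)) = χ(G) - n · chartDeg`. -/
theorem curve_euler_twist_down (hC : IsCurveChart k B₀ B₁ B₀₁ x y e) {K : Type u} [Field K]
    [Algebra k K] (G : CurveGD k B₀ B₁ B₀₁ K) (n : ℕ) :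
    (twist G ((curveUnit hC K)⁻¹ ^ n)).euler = G.euler - n * chartDeg k y := by
  haveI := away_tensor_x hC K
  obtain ⟨h1, h2⟩ := curve_quotYRank hC G
  haveI := h1
  have := (euler_twist_down ((1 : K) ⊗ₜ[k] x : K ⊗[k] B₀) ((1 : K) ⊗ₜ[k] y : K ⊗[k] B₁)
    (tensor_mul_eq_one hC K) G (smulYK_injective hC G) (curve_finCoh hC G) n).2
  rw [h2] at this
  have h3 : (twist G ((curveUnit hC K)⁻¹ ^ n)).euler =
      (twist G ((unitOfMulEqOne ((1 : K) ⊗ₜ[k] x : K ⊗[k] B₀)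
        ((1 : K) ⊗ₜ[k] y : K ⊗[k] B₁) (tensor_mul_eq_one hC K))⁻¹ ^ n)).euler := rfl
  rw [h3]
  linarith

/-- **D4.** `deg G(n E₀) = deg G + n · chartDeg`. -/
theorem curve_degree_twist_up (hC : IsCurveChart k B₀ B₁ B₀₁ x y e) {K : Type u} [Field K]
    [Algebra k K] (G : CurveGD k B₀ B₁ B₀₁ K) (n : ℕ) :
    (twist G (curveUnit hC K ^ n)).degree = G.degree + n * chartDeg k y := by
  rw [GlueDatum.degree, GlueDatum.degree, curve_euler_twist_up hC G n]
  ring

/-- **D4.** `deg G(-n E₀) = deg G - n · chartDeg`. -/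
theorem curve_degree_twist_down (hC : IsCurveChart k B₀ B₁ B₀₁ x y e) {K : Type u} [Field K]
    [Algebra k K] (G : CurveGD k B₀ B₁ B₀₁ K) (n : ℕ) :
    (twist G ((curveUnit hC K)⁻¹ ^ n)).degree = G.degree - n * chartDeg k y := by
  rw [GlueDatum.degree, GlueDatum.degree, curve_euler_twist_down hC G n]
  ring

end Chart

end

end Fermat.Agent.S25.H731
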