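import Mathlib
import Fermat.Agent.S25.DefsAlg
import Fermat.Agent.S25.H731.CurveTwist

/-!
# S25 / DEGREE D5 core (helper731): the cokernel of a nonzero section is finite-dimensional

`R` a domain which is, as a `K`-vector space with the operator `t`, isomorphic to `K[X]ⁿ`
(e.g. `R = K ⊗ B₀`, `t = 1 ⊗ x` for a curve chart), `N` an invertible `R`-module, `s ∈ N`
nonzero.  Then `N / R s` is finite-dimensional over `K`
(`finiteDimensional_quot_toSpanSingleton`).
-/

set_option autoImplicit false
set_option linter.style.haveILetI false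
set_option linter.unusedSectionVars false

universe u

open scoped TensorProduct
open Polynomial

namespace Fermat.Agent.S25.H731

open Fermat.Agent.S25

noncomputable section

section Equivariant

variable {K : Type u} [Field K] {R : Type u} [CommRing R] [Algebra K R]

theorem equivariant_pow (t : R) {n : ℕ} (Φ : R ≃ₗ[K] (Fin n → K[X]))
    (hΦ : ∀ z, Φ (t * z) = (X : K[X]) • Φ z) (j : ℕ) (z : R) :
    Φ (t ^ j * z) = (X : K[X]) ^ j • Φ z := by
  induction j generalizing z with
  | zero => simp
  | succ j ih => rw [pow_succ, mul_assoc, ih, hΦ, smul_smul, pow_succ]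

theorem equivariant_aeval (t : R) {n : ℕ} (Φ : R ≃ₗ[K] (Fin n → K[X]))
    (hΦ : ∀ z, Φ (t * z) = (X : K[X]) • Φ z) (q : K[X]) (z : R) :
    Φ (Polynomial.aeval t q * z) = q • Φ z := by
  induction q using Polynomial.induction_on' with
  | add p q hp hq => rw [map_add, add_mul, map_add, hp, hq, add_smul]
  | monomial j a =>
    rw [Polynomial.aeval_monomial, mul_assoc, ← Algebra.smul_def, map_smul,
      equivariant_pow t Φ hΦ, ← Polynomial.C_mul_X_pow_eq_monomial, mul_smul]
    rw [← Polynomial.algebraMap_eq, algebraMap_smul]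

/-- `R / q(t) R` is finite-dimensional for `q ≠ 0`. -/
theorem finite_quot_span_aeval (t : R) {n : ℕ} (Φ : R ≃ₗ[K] (Fin n → K[X]))
    (hΦ : ∀ z, Φ (t * z) = (X : K[X]) • Φ z) (q : K[X]) (hq : q ≠ 0) :
    Module.Finite K (R ⧸ Ideal.span {Polynomial.aeval t q}) := by
  haveI hfin : Module.Finite K (K[X] ⧸ Ideal.span {q}) :=
    (AdjoinRoot.powerBasis hq).finite
  let mk : K[X] →ₗ[K] (K[X] ⧸ Ideal.span {q}) := (Ideal.Quotient.mkₐ K (Ideal.span {q})).toLinearMap
  let g : R →ₗ[K] (Fin n → (K[X] ⧸ Ideal.span {q})) :=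
    (LinearMap.pi fun i => mk ∘ₗ LinearMap.proj i) ∘ₗ Φ.toLinearMap
  have hker : LinearMap.ker g ≤
      (Ideal.span {Polynomial.aeval t q} : Submodule R R).restrictScalars K := by
    intro z hz
    rw [LinearMap.mem_ker] at hz
    rw [Submodule.restrictScalars_mem]
    have h' : ∀ i, q ∣ Φ z i := fun i => by
      have := congrFun hz i
      have h2 : Ideal.Quotient.mk (Ideal.span {q}) (Φ z i) = 0 := this
      rw [Ideal.Quotient.eq_zero_iff_mem, Ideal.mem_span_singleton] at h2
      exact h2
    choose w' hw' using h'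
    have hz' : Φ z = q • w' := funext fun i => by rw [Pi.smul_apply, smul_eq_mul]; exact hw' i
    rw [Ideal.mem_span_singleton']
    refine ⟨Φ.symm w', ?_⟩
    apply Φ.injective
    rw [mul_comm, equivariant_aeval t Φ hΦ, Φ.apply_symm_apply, hz']
  -- `R ⧸ ker g` is finite-dimensional
  have h1 : Module.Finite K (R ⧸ LinearMap.ker g) :=
    Module.Finite.of_injective ((LinearMap.ker g).liftQ g le_rfl)
      (LinearMap.ker_eq_bot.1 (Submodule.ker_liftQ_eq_bot _ _ _ le_rfl))
  have h2 : Module.Finite K (R ⧸ (Ideal.span {Polynomial.aeval t q} :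
      Submodule R R).restrictScalars K) :=
    Module.Finite.of_surjective (Submodule.factor hker) (Submodule.factor_surjective hker)
  exact Module.Finite.equiv
    (Submodule.Quotient.restrictScalarsEquiv K (Ideal.span {Polynomial.aeval t q} : Submodule R R))

end Equivariant


section Section

variable {K : Type u} [Field K] {R : Type u} [CommRing R] [Algebra K R]
  (N : Type u) [AddCommGroup N] [Module R N] [Module K N] [IsScalarTower K R N]
  [Module.Invertible R N]

/-- In an invertible module, `φ(m) • n = φ(n) • m` for every functional `φ`. -/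
theorem dual_apply_smul_comm' (φ : Module.Dual R N) (m n : N) : φ m • n = φ n • m := by
  have h := Module.Invertible.tmul_comm (R := R) (m₁ := m) (m₂ := n)
  have := congrArg (TensorProduct.lift ((LinearMap.lsmul R N).comp φ)) h
  simpa using this

variable [IsDomain R]

/-- For a nonzero `a ∈ R` there is a nonzero polynomial `q` with `q(t) ∈ a R`. -/
theorem exists_aeval_mem_span (t : R) {n : ℕ} (Φ : R ≃ₗ[K] (Fin n → K[X]))
    (hΦ : ∀ z, Φ (t * z) = (X : K[X]) • Φ z) (a : R) (ha : a ≠ 0) :
    ∃ q : K[X], q ≠ 0 ∧ ∃ c : R, Polynomial.aeval t q = c * a := by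
  letI : Algebra K[X] R := (Polynomial.aeval t : K[X] →ₐ[K] R).toRingHom.toAlgebra
  have halg : ∀ p : K[X], algebraMap K[X] R p = Polynomial.aeval t p := fun _ => rfl
  let Φ' : R ≃ₗ[K[X]] (Fin n → K[X]) :=
    { Φ with
      map_smul' := fun p z => by
        show Φ (p • z) = p • Φ z
        rw [Algebra.smul_def, halg, equivariant_aeval t Φ hΦ] }
  haveI : Module.Finite K[X] R := Module.Finite.equiv Φ'.symm
  have hint : IsIntegral K[X] a := Algebra.IsIntegral.isIntegral a
  have hne := Ideal.comap_ne_bot_of_integral_mem (I := Ideal.span {a}) ha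
    (Ideal.mem_span_singleton_self a) hint
  obtain ⟨q, hq, hq0⟩ := Submodule.exists_mem_ne_zero_of_ne_bot hne
  rw [Ideal.mem_comap, Ideal.mem_span_singleton'] at hq
  obtain ⟨c, hc⟩ := hq
  exact ⟨q, hq0, c, by rw [← halg, ← hc]⟩

/-- **D5 core.** The cokernel of a nonzero section `R → N`, `1 ↦ s` of an invertible module
over a domain `R ≅ K[X]ⁿ` is finite-dimensional over `K`. -/
theorem finiteDimensional_quot_toSpanSingleton (t : R) {n : ℕ} (Φ : R ≃ₗ[K] (Fin n → K[X]))
    (hΦ : ∀ z, Φ (t * z) = (X : K[X]) • Φ z) (s : N) (hs : s ≠ 0) :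
    FiniteDimensional K
      (N ⧸ LinearMap.range ((LinearMap.toSpanSingleton R N s).restrictScalars K)) := by
  obtain ⟨φ, hφ⟩ := Module.Projective.exists_dual_ne_zero R hs
  obtain ⟨q, hq, c, hc⟩ := exists_aeval_mem_span t Φ hΦ (φ s) hφ
  haveI := finite_quot_span_aeval t Φ hΦ q hq
  obtain ⟨E⟩ := nonempty_quot_smul_equiv (K := K) N (Polynomial.aeval t q)
  haveI : Module.Finite K
      (N ⧸ LinearMap.range ((LinearMap.lsmul R N (Polynomial.aeval t q)).restrictScalars K)) :=
    Module.Finite.equiv E.symm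
  have hle : LinearMap.range ((LinearMap.lsmul R N (Polynomial.aeval t q)).restrictScalars K) ≤
      LinearMap.range ((LinearMap.toSpanSingleton R N s).restrictScalars K) := by
    rintro _ ⟨m, rfl⟩
    refine ⟨c * φ m, ?_⟩
    show (c * φ m) • s = Polynomial.aeval t q • m
    rw [hc, mul_smul, mul_smul, dual_apply_smul_comm' N φ m s]
  exact Module.Finite.of_surjective (Submodule.factor hle) (Submodule.factor_surjective hle)

end Section

end

end Fermat.Agent.S25.H731
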