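import Mathlib
import Fermat.Agent.S25.DefsAlg
import Fermat.Agent.S25.H731.SectionCoker
import Fermat.Agent.S25.H567.TensorDomain

/-!
# S25 / DEGREE D7 (helper731): uniform vanishing of `H¹`

For a curve chart `(B₀, B₁, B₀₁, x, y, e)` over an algebraically closed field `k` there is an
integer `N₀` such that for EVERY field `K ⊇ k` and EVERY gluing datum `G` on `C_K` of degree
`≥ N₀` the Čech differential of `G` is surjective, i.e. `H¹(G) = 0`
(`exists_uniform_vanishing`).  In twisted form: for every `G` of degree `≥ 0` and every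
`n ≥ n*`, `H¹(G(n E₀)) = 0` (`exists_uniform_vanishing_twist`).

No duality is used: `unit(n₁ E₀)` has `H¹ = 0` for a uniform `n₁`; if `deg G` is large then
`G(-n₁ E₀)` has a nonzero section, which gives a morphism `unit(n₁ E₀) ⟶ G` with
finite-dimensional cokernel, and `H¹` of the source surjects onto `H¹` of the target (D3).
-/

set_option autoImplicit false
set_option linter.style.haveILetI false
set_option linter.unusedSectionVars false

universe u

open scoped TensorProduct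
open Polynomial

namespace Fermat.Agent.S25.H731

open Fermat.Agent.S25 Fermat.Agent.S25.H10 Fermat.Agent.S25.H565

noncomputable section

section Chart

variable {k : Type u} [Field k] {B₀ B₁ B₀₁ : Type u} [CommRing B₀] [CommRing B₁] [CommRing B₀₁]
  [Algebra k B₀] [Algebra k B₁] [Algebra k B₀₁] [Algebra B₀ B₀₁] [Algebra B₁ B₀₁]
  [IsScalarTower k B₀ B₀₁] [IsScalarTower k B₁ B₀₁]
  {x : B₀} {y : B₁} {e : B₁ →ₐ[k] k}

theorem tensorMapLeft_tmul' {A A' : Type u} [CommRing A] [Algebra k A] [CommRing A']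
    [Algebra k A'] (φ : A →ₐ[k] A') (B : Type u) [CommRing B] [Algebra k B] (a : A) (b : B) :
    tensorMapLeft k φ B (a ⊗ₜ[k] b) = φ a ⊗ₜ[k] b := by
  simp [tensorMapLeft]

theorem tensorMapLeft_algebraMap' {A A' : Type u} [CommRing A] [Algebra k A] [CommRing A']
    [Algebra k A'] (φ : A →ₐ[k] A') (B B' : Type u) [CommRing B] [Algebra k B] [CommRing B']
    [Algebra k B'] [Algebra B B'] [IsScalarTower k B B'] (z : A ⊗[k] B) :
    tensorMapLeft k φ B' (algebraMap (A ⊗[k] B) (A ⊗[k] B') z) =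
      algebraMap (A' ⊗[k] B) (A' ⊗[k] B') (tensorMapLeft k φ B z) := by
  induction z using TensorProduct.induction_on with
  | zero => simp
  | tmul a b =>
    rw [H250.algebraMap_tensor_tmul, tensorMapLeft_tmul', tensorMapLeft_tmul',
      H250.algebraMap_tensor_tmul]
  | add z w hz hw => rw [map_add, map_add, hz, hw, map_add, map_add]

theorem val_curveUnit (hC : IsCurveChart k B₀ B₁ B₀₁ x y e) (K : Type u) [Field K]
    [Algebra k K] :
    ((curveUnit hC K : (K ⊗[k] B₀₁)ˣ) : K ⊗[k] B₀₁) = (1 : K) ⊗ₜ[k] algebraMap B₀ B₀₁ x := by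
  show algebraMap (K ⊗[k] B₀) (K ⊗[k] B₀₁) ((1 : K) ⊗ₜ[k] x) = _
  rw [H250.algebraMap_tensor_tmul]

theorem val_inv_curveUnit (hC : IsCurveChart k B₀ B₁ B₀₁ x y e) (K : Type u) [Field K]
    [Algebra k K] :
    (((curveUnit hC K)⁻¹ : (K ⊗[k] B₀₁)ˣ) : K ⊗[k] B₀₁) = (1 : K) ⊗ₜ[k] algebraMap B₁ B₀₁ y := by
  show algebraMap (K ⊗[k] B₁) (K ⊗[k] B₀₁) ((1 : K) ⊗ₜ[k] y) = _
  rw [H250.algebraMap_tensor_tmul]

/-- The unit gluing datum on `C_K`. -/
abbrev unitGD (k : Type u) [Field k] (B₀ B₁ B₀₁ : Type u) [CommRing B₀] [CommRing B₁]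
    [CommRing B₀₁] [Algebra k B₀] [Algebra k B₁] [Algebra k B₀₁] [Algebra B₀ B₀₁]
    [Algebra B₁ B₀₁] [IsScalarTower k B₀ B₀₁] [IsScalarTower k B₁ B₀₁]
    (K : Type u) [Field K] [Algebra k K] : CurveGD k B₀ B₁ B₀₁ K :=
  GlueDatum.unit K (K ⊗[k] B₀) (K ⊗[k] B₁) (K ⊗[k] B₀₁)

/-- **K2, uniformly in the base field.** There is `n₁` such that `H¹(O(n₁ E₀)) = 0` over every
field `K ⊇ k`. -/
theorem exists_unit_twist_surjective (hC : IsCurveChart k B₀ B₁ B₀₁ x y e) :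
    ∃ n₁ : ℕ, ∀ (K : Type u) [Field K] [Algebra k K],
      Function.Surjective (twist (unitGD k B₀ B₁ B₀₁ K) (curveUnit hC K ^ n₁)).cech := by
  obtain ⟨m0, hm0⟩ := H790.exists_forall_d_surjective
    (H250.chartCechOps hC (unitGD k B₀ B₁ B₀₁ k))
    (isFG_of_isFGProj (H250.isFGProj_X0 hC (unitGD k B₀ B₁ B₀₁ k)))
  refine ⟨m0, fun K _ _ => ?_⟩
  have hk := hm0 m0 le_rfl
  haveI := hC.away₀
  haveI := hC.away₁
  have key : ∀ b : B₀₁, ∃ (q0 : K ⊗[k] B₀) (q1 : K ⊗[k] B₁),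
      algebraMap (K ⊗[k] B₀) (K ⊗[k] B₀₁) q0 -
        ((1 : K) ⊗ₜ[k] algebraMap B₀ B₀₁ x : K ⊗[k] B₀₁) ^ m0 *
          algebraMap (K ⊗[k] B₁) (K ⊗[k] B₀₁) q1 = (1 : K) ⊗ₜ[k] b := by
    intro b
    obtain ⟨⟨p0, p1⟩, hp⟩ := hk ((1 : k) ⊗ₜ[k] b)
    have hp' : algebraMap (k ⊗[k] B₀) (k ⊗[k] B₀₁) p0 -
        ((1 : k) ⊗ₜ[k] algebraMap B₀ B₀₁ x : k ⊗[k] B₀₁) ^ m0 *
          algebraMap (k ⊗[k] B₁) (k ⊗[k] B₀₁) p1 = (1 : k) ⊗ₜ[k] b := by
      rw [← hp, CechOps.d_apply,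
        show H250.chartCechOps hC (unitGD k B₀ B₁ B₀₁ k) =
          H250.toCechOps x y hC.mul_eq_one (unitGD k B₀ B₁ B₀₁ k) from rfl,
        H250.toCechOps_T_pow_apply]
      rfl
    refine ⟨tensorMapLeft k (Algebra.ofId k K) B₀ p0,
      tensorMapLeft k (Algebra.ofId k K) B₁ p1, ?_⟩
    have h2 := congrArg (tensorMapLeft k (Algebra.ofId k K) B₀₁) hp'
    rw [map_sub, map_mul, map_pow, tensorMapLeft_algebraMap', tensorMapLeft_algebraMap',
      tensorMapLeft_tmul', tensorMapLeft_tmul', map_one] at h2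
    exact h2
  have key' : ∀ z : K ⊗[k] B₀₁, ∃ (q0 : K ⊗[k] B₀) (q1 : K ⊗[k] B₁),
      algebraMap (K ⊗[k] B₀) (K ⊗[k] B₀₁) q0 -
        ((1 : K) ⊗ₜ[k] algebraMap B₀ B₀₁ x : K ⊗[k] B₀₁) ^ m0 *
          algebraMap (K ⊗[k] B₁) (K ⊗[k] B₀₁) q1 = z := by
    intro z
    induction z using TensorProduct.induction_on with
    | zero => exact ⟨0, 0, by simp⟩
    | tmul a b =>
      obtain ⟨q0, q1, h⟩ := key b
      refine ⟨a • q0, a • q1, ?_⟩
      have hs0 : algebraMap (K ⊗[k] B₀) (K ⊗[k] B₀₁) (a • q0) =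
          a • algebraMap (K ⊗[k] B₀) (K ⊗[k] B₀₁) q0 :=
        map_smul (IsScalarTower.toAlgHom K (K ⊗[k] B₀) (K ⊗[k] B₀₁)) a q0
      have hs1 : algebraMap (K ⊗[k] B₁) (K ⊗[k] B₀₁) (a • q1) =
          a • algebraMap (K ⊗[k] B₁) (K ⊗[k] B₀₁) q1 :=
        map_smul (IsScalarTower.toAlgHom K (K ⊗[k] B₁) (K ⊗[k] B₀₁)) a q1
      rw [hs0, hs1, mul_smul_comm, ← smul_sub, h, TensorProduct.smul_tmul',
        smul_eq_mul, mul_one]
    | add z w hz hw =>
      obtain ⟨p0, p1, hp⟩ := hz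
      obtain ⟨q0, q1, hq⟩ := hw
      refine ⟨p0 + q0, p1 + q1, ?_⟩
      rw [map_add, map_add, ← hp, ← hq]
      ring
  intro z
  obtain ⟨q0, q1, h⟩ := key' z
  refine ⟨(q0, q1), ?_⟩
  rw [twist_cech_apply, Units.val_pow_eq_pow_val, val_curveUnit]
  exact h


/-- `χ` of a datum with vanishing `H¹` and a nonzero section is `≥ 1`. -/
theorem one_le_euler_of_surjective {K R₀ R₁ R₀₁ : Type u} [Field K] [CommRing R₀] [CommRing R₁]
    [CommRing R₀₁] [Algebra K R₀] [Algebra K R₁] [Algebra K R₀₁] [Algebra R₀ R₀₁]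
    [Algebra R₁ R₀₁] [IsScalarTower K R₀ R₀₁] [IsScalarTower K R₁ R₀₁]
    (G : GlueDatum K R₀ R₁ R₀₁) (hF : FinCoh G.cech) (hs : Function.Surjective G.cech)
    (p : G.N₀ × G.N₁) (hp : G.cech p = 0) (hp0 : p ≠ 0) : 1 ≤ G.euler := by
  have h1 : Module.finrank K G.H1 = 0 := by
    have : Subsingleton G.H1 := by
      rw [Submodule.Quotient.subsingleton_iff]
      exact LinearMap.range_eq_top.2 hs
    exact Module.finrank_zero_of_subsingleton
  have h0 : 0 < Module.finrank K G.H0 := by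
    haveI := hF.1
    rw [Module.finrank_pos_iff_exists_ne_zero]
    exact ⟨⟨p, hp⟩, fun h => hp0 (congrArg Subtype.val h)⟩
  rw [GlueDatum.euler, h1]
  push_cast
  omega

theorem nontrivial_tensor₀ (hC : IsCurveChart k B₀ B₁ B₀₁ x y e) (K : Type u) [Field K]
    [Algebra k K] : Nontrivial (K ⊗[k] B₀) := by
  haveI := hC.isDomain₀
  exact (Algebra.TensorProduct.includeLeft_injective (R := k) (S := k) (A := K) (B := B₀)
    (algebraMap k B₀).injective).nontrivial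

/-- `χ(O_{C_K}) ≥ 1 - n₁ · chartDeg` if `H¹(O(n₁ E₀)) = 0`. -/
theorem unit_euler_ge (hC : IsCurveChart k B₀ B₁ B₀₁ x y e) (K : Type u) [Field K]
    [Algebra k K] (n₁ : ℕ)
    (hn₁ : Function.Surjective (twist (unitGD k B₀ B₁ B₀₁ K) (curveUnit hC K ^ n₁)).cech) :
    1 - (n₁ : ℤ) * chartDeg k y ≤ (unitGD k B₀ B₁ B₀₁ K).euler := by
  have h1 := curve_euler_twist_up hC (unitGD k B₀ B₁ B₀₁ K) n₁
  have hF : FinCoh (twist (unitGD k B₀ B₁ B₀₁ K) (curveUnit hC K ^ n₁)).cech :=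
    curve_finCoh hC (twist (unitGD k B₀ B₁ B₀₁ K) (curveUnit hC K ^ n₁))
  haveI := nontrivial_tensor₀ hC K
  have h2 : 1 ≤ (twist (unitGD k B₀ B₁ B₀₁ K) (curveUnit hC K ^ n₁)).euler := by
    refine one_le_euler_of_surjective _ hF hn₁
      ((1 : K ⊗[k] B₀), ((1 : K) ⊗ₜ[k] y : K ⊗[k] B₁) ^ n₁) ?_ ?_
    · rw [twist_cech_apply, Units.val_pow_eq_pow_val, val_curveUnit]
      show algebraMap (K ⊗[k] B₀) (K ⊗[k] B₀₁) 1 -
        ((1 : K) ⊗ₜ[k] algebraMap B₀ B₀₁ x : K ⊗[k] B₀₁) ^ n₁ *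
          algebraMap (K ⊗[k] B₁) (K ⊗[k] B₀₁) (((1 : K) ⊗ₜ[k] y : K ⊗[k] B₁) ^ n₁) = 0
      rw [map_one, map_pow, H250.algebraMap_tensor_tmul, ← mul_pow,
        Algebra.TensorProduct.tmul_mul_tmul, one_mul, hC.mul_eq_one,
        ← Algebra.TensorProduct.one_def, one_pow, sub_self]
    · intro h
      have : (1 : K ⊗[k] B₀) = 0 := congrArg Prod.fst h
      exact one_ne_zero this
  linarith

theorem chartDeg_pos (hC : IsCurveChart k B₀ B₁ B₀₁ x y e) : 0 < chartDeg k y := by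
  haveI := hC.isDomain₁
  obtain ⟨n, φ, hφ⟩ := H250.exists_equivariant_equiv (H250.aeval_y_injective hC) hC.finite₁
  obtain ⟨h1, h2⟩ := finrank_quot_span_of_equivariant y φ hφ
  haveI := h1
  rw [chartDeg, Module.finrank_pos_iff_exists_ne_zero]
  refine ⟨Ideal.Quotient.mk _ 1, fun h => ?_⟩
  rw [Ideal.Quotient.eq_zero_iff_mem, Ideal.mem_span_singleton'] at h
  obtain ⟨a, ha⟩ := h
  have := congrArg e ha
  rw [map_mul, hC.e_y, mul_zero, map_one] at this
  exact zero_ne_one this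

/-- **D7 (uniform vanishing).** There is `N₀` such that `H¹(G) = 0` for every gluing datum `G`
of degree `≥ N₀` on `C_K`, for every field `K ⊇ k`. -/
theorem exists_uniform_vanishing [IsAlgClosed k] (hC : IsCurveChart k B₀ B₁ B₀₁ x y e) :
    ∃ N₀ : ℤ, ∀ (K : Type u) [Field K] [Algebra k K] (G : CurveGD k B₀ B₁ B₀₁ K),
      N₀ ≤ G.degree → Function.Surjective G.cech := by
  obtain ⟨n₁, hn₁⟩ := exists_unit_twist_surjective hC
  refine ⟨2 * n₁ * chartDeg k y, fun K _ _ G hdeg => ?_⟩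
  -- a nonzero section of `G(-n₁ E₀)`
  have hu := unit_euler_ge hC K n₁ (hn₁ K)
  have hd := curve_euler_twist_down hC G n₁
  have hF : FinCoh (twist G ((curveUnit hC K)⁻¹ ^ n₁)).cech :=
    curve_finCoh hC (twist G ((curveUnit hC K)⁻¹ ^ n₁))
  have hχ : 1 ≤ (twist G ((curveUnit hC K)⁻¹ ^ n₁)).euler := by
    rw [hd]
    have hdeg' : G.degree = G.euler - (unitGD k B₀ B₁ B₀₁ K).euler := rfl
    linarith
  obtain ⟨s0, s1, hs, hp0⟩ := exists_twisted_section G _ hF hχ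
  have hs0 : s0 ≠ 0 := by
    intro h0
    have h1 : G.r₁ s1 = 0 := by
      have h2 : (((curveUnit hC K)⁻¹ ^ n₁ : (K ⊗[k] B₀₁)ˣ) : K ⊗[k] B₀₁) • G.r₁ s1 = 0 := by
        rw [← hs, h0, map_zero]
      have h3 := congrArg (fun z => ((curveUnit hC K ^ n₁ : (K ⊗[k] B₀₁)ˣ) : K ⊗[k] B₀₁) • z) h2
      simp only [smul_zero] at h3
      rw [smul_smul, ← Units.val_mul, ← mul_pow, mul_inv_cancel, one_pow, Units.val_one,
        one_smul] at h3
      exact h3
    have h4 : s1 = 0 := H250.r1_injective hC G (by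
      show G.r₁ s1 = G.r₁ 0
      rw [h1, map_zero])
    rcases hp0 with h | h
    · exact h h0
    · exact h h4
  -- the morphism `O(n₁ E₀) ⟶ G`
  have hs' : G.r₀ s0 = (((curveUnit hC K ^ n₁)⁻¹ : (K ⊗[k] B₀₁)ˣ) : K ⊗[k] B₀₁) • G.r₁ s1 := by
    rw [← inv_pow]; exact hs
  let ψ : GlueHom (twist (unitGD k B₀ B₁ B₀₁ K) (curveUnit hC K ^ n₁)) G :=
    sectionHom G (curveUnit hC K ^ n₁) s0 s1 hs'
  haveI := hC.isDomain₀
  haveI : IsDomain (K ⊗[k] B₀) := H567.isDomain_tensorProduct_of_isAlgClosed k K B₀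
  obtain ⟨n, φ, hφ⟩ := H250.exists_equivariant_equiv (H250.aeval_x_injective hC) hC.finite₀
  obtain ⟨Φ, hΦ⟩ := H250.exists_equivariant_equiv_tensor φ hφ K
  haveI := G.invertible₀
  haveI hfd : FiniteDimensional K ψ.coker₀ :=
    finiteDimensional_quot_toSpanSingleton G.N₀ ((1 : K) ⊗ₜ[k] x : K ⊗[k] B₀) Φ hΦ s0 hs0
  haveI := away_tensor_x hC K
  exact ψ.cech_surjective ((1 : K) ⊗ₜ[k] x : K ⊗[k] B₀) (hn₁ K)

/-- The twisted differential of the operator-style datum is the Čech differential of the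
twisted gluing datum: `(chartCechOps hC G).d n = (G(n E₀)).cech`. -/
theorem chartCechOps_d_eq_twist_cech (hC : IsCurveChart k B₀ B₁ B₀₁ x y e) {K : Type u}
    [Field K] [Algebra k K] (G : CurveGD k B₀ B₁ B₀₁ K) (n : ℕ) (p : G.N₀ × G.N₁) :
    (H250.chartCechOps hC G).d n p = (twist G (curveUnit hC K ^ n)).cech p := by
  haveI := hC.away₀
  haveI := hC.away₁
  rw [twist_cech_apply, Units.val_pow_eq_pow_val, val_curveUnit, CechOps.d_apply,
    show H250.chartCechOps hC G = H250.toCechOps x y hC.mul_eq_one G from rfl,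
    H250.toCechOps_T_pow_apply]
  rfl

/-- **D7, twisted form.** There is `n₀` such that `H¹(G(n E₀)) = 0` for all `n ≥ n₀` and all
gluing data `G` of degree `≥ 0` on `C_K`, for every field `K ⊇ k`. -/
theorem exists_uniform_vanishing_twist [IsAlgClosed k] (hC : IsCurveChart k B₀ B₁ B₀₁ x y e) :
    ∃ n₀ : ℕ, ∀ (K : Type u) [Field K] [Algebra k K] (G : CurveGD k B₀ B₁ B₀₁ K),
      0 ≤ G.degree → ∀ n, n₀ ≤ n →
        Function.Surjective (twist G (curveUnit hC K ^ n)).cech := by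
  obtain ⟨N₀, hN₀⟩ := exists_uniform_vanishing hC
  refine ⟨N₀.toNat, fun K _ _ G hG n hn => ?_⟩
  apply hN₀ K (twist G (curveUnit hC K ^ n))
  rw [curve_degree_twist_up hC G n]
  have hd : (1 : ℤ) ≤ chartDeg k y := by exact_mod_cast chartDeg_pos hC
  have hn' : N₀ ≤ n := by
    have := Int.self_le_toNat N₀
    have h2 : (N₀.toNat : ℤ) ≤ n := by exact_mod_cast hn
    linarith
  have hn0 : (0 : ℤ) ≤ n := Int.natCast_nonneg n
  nlinarith

/-- **D7, operator form** (for the Čech core K0–K6): `(chartCechOps hC G).d n` is surjective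
for all `n ≥ n₀`, uniformly in the field `K ⊇ k` and in the gluing datum `G` of degree `≥ 0`. -/
theorem exists_uniform_d_surjective [IsAlgClosed k] (hC : IsCurveChart k B₀ B₁ B₀₁ x y e) :
    ∃ n₀ : ℕ, ∀ (K : Type u) [Field K] [Algebra k K] (G : CurveGD k B₀ B₁ B₀₁ K),
      0 ≤ G.degree → ∀ n, n₀ ≤ n → Function.Surjective ((H250.chartCechOps hC G).d n) := by
  obtain ⟨n₀, hn₀⟩ := exists_uniform_vanishing_twist hC
  refine ⟨n₀, fun K _ _ G hG n hn z => ?_⟩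
  obtain ⟨p, hp⟩ := hn₀ K G hG n hn z
  exact ⟨p, by rw [chartCechOps_d_eq_twist_cech]; exact hp⟩

end Chart

end

end Fermat.Agent.S25.H731
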