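import Mathlib
import Fermat.Agent.S25.DefsAlg
import Fermat.Agent.S25.H731.UniformVanishing
import Fermat.Agent.S25.H370.DegreeD8

/-!
# S25 / DEGREE D8-d (helper731): uniform vanishing in families

`exists_uniform_vanishing_family` — the exact statement D8-d of helper10's `DegreeSkel`:
there is `n₀` such that for every `k`-algebra `A` and every gluing datum `G` on `C_A` all of
whose fibres have degree `≥ n₀`: `Ȟ¹(G) = 0` and `Ȟ⁰(G)` is finitely generated projective.
Combination of D7 (`H731.exists_uniform_vanishing`) and helper370's D8-a/b.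
-/

set_option autoImplicit false

universe u

open scoped TensorProduct

namespace Fermat.Agent.S25.H731

open Fermat.Agent.S25

variable {k : Type u} [Field k] {B₀ B₁ B₀₁ : Type u} [CommRing B₀] [CommRing B₁] [CommRing B₀₁]
  [Algebra k B₀] [Algebra k B₁] [Algebra k B₀₁] [Algebra B₀ B₀₁] [Algebra B₁ B₀₁]
  [IsScalarTower k B₀ B₀₁] [IsScalarTower k B₁ B₀₁]
  {x : B₀} {y : B₁} {e : B₁ →ₐ[k] k}

/-- **D8-d.** Uniform vanishing in families: fibrewise degree `≥ n₀` kills `Ȟ¹`. -/
theorem exists_uniform_vanishing_family [IsAlgClosed k]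
    (hC : IsCurveChart k B₀ B₁ B₀₁ x y e) :
    ∃ n₀ : ℤ, ∀ (A : Type u) [CommRing A] [Algebra k A] (G : CurveGD k B₀ B₁ B₀₁ A),
      (∀ (K : Type u) [Field K] [Algebra k K] (φ : A →ₐ[k] K) (G' : CurveGD k B₀ B₁ B₀₁ K),
        CurveGD.IsBC φ G G' → n₀ ≤ G'.degree) →
      Function.Surjective G.cech ∧ Module.Finite A G.H0 ∧ Module.Projective A G.H0 :=
  H370.exists_uniform_vanishing_family_of hC (exists_uniform_vanishing hC)

end Fermat.Agent.S25.H731
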